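import Fermat.Agent.RieszCriterion.Series
import Fermat.Agent.Root.SummaryVonKoch
import Mathlib.Analysis.MellinTransform
import Mathlib.Analysis.SpecialFunctions.Gamma.Beta
import Mathlib.MeasureTheory.Integral.DominatedConvergence

/-!
# The Mellin transform of Riesz's function

It is `Γ (1 - s) / ζ (2 s)`, so a bound `O (x ^ α)` at infinity leaves `ζ` without zeros in
`2 α < re w < 2`.
-/

set_option autoImplicit false

noncomputable section

open Finset Filter MeasureTheory Asymptotics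
open scoped Topology ArithmeticFunction.Moebius

namespace FA.RieszCriterion

theorem abs_moebius_div_sq_le (n : ℕ) : |(μ n : ℝ) / (n : ℝ) ^ 2| ≤ 1 / (n : ℝ) ^ 2 := by
  rw [abs_div, abs_of_nonneg (sq_nonneg (n : ℝ))]
  exact div_le_div_of_nonneg_right
    (by exact_mod_cast ArithmeticFunction.abs_moebius_le_one) (sq_nonneg _)

theorem abs_kernelTerm_le {x : ℝ} (hx : 0 ≤ x) (n : ℕ) :
    |kernelTerm x n| ≤ x * (1 / (n : ℝ) ^ 2) := by
  rw [kernelTerm, show (μ n : ℝ) * (x / (n : ℝ) ^ 2 * Real.exp (-(x / (n : ℝ) ^ 2))) =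
    (μ n : ℝ) / (n : ℝ) ^ 2 * (x * Real.exp (-(x / (n : ℝ) ^ 2))) by ring, abs_mul,
    abs_of_nonneg (show 0 ≤ x * Real.exp (-(x / (n : ℝ) ^ 2)) by positivity)]
  refine (mul_le_mul (abs_moebius_div_sq_le n) (mul_le_of_le_one_right hx
    (Real.exp_le_one_iff.2 (neg_nonpos.2 (by positivity)))) (by positivity)
    (by positivity)).trans (le_of_eq (mul_comm _ _))

theorem continuousOn_riesz : ContinuousOn riesz (Set.Ioi 0) := by
  intro t ht
  have h : ContinuousOn riesz (Set.Ioo 0 (t + 1)) := by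
    have e : riesz = fun x => ((∑' n, kernelTerm x n : ℝ) : ℂ) := funext riesz_eq
    rw [e]
    refine Complex.continuous_ofReal.comp_continuousOn (continuousOn_tsum (fun n => ?_)
      ((Real.summable_one_div_nat_pow.2 one_lt_two).mul_left (t + 1)) fun n x hx => ?_)
    · exact (by unfold kernelTerm; fun_prop : Continuous fun x => kernelTerm x n).continuousOn
    · rw [Real.norm_eq_abs]
      exact (abs_kernelTerm_le hx.1.le n).trans
        (mul_le_mul_of_nonneg_right hx.2.le (by positivity))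
  exact (h.continuousAt (Ioo_mem_nhds ht (lt_add_one t))).continuousWithinAt

theorem norm_riesz_le {x : ℝ} (hx : 0 ≤ x) : ‖riesz x‖ ≤ x * ∑' n : ℕ, 1 / (n : ℝ) ^ 2 := by
  have hs := (Real.summable_one_div_nat_pow.2 one_lt_two).mul_left x
  rw [riesz_eq, Complex.norm_real, ← tsum_mul_left]
  exact tsum_of_norm_bounded hs.hasSum fun n => by
    rw [Real.norm_eq_abs]
    exact abs_kernelTerm_le hx n

theorem differentiableAt_mellin_riesz {α C : ℝ} (h : ∀ x : ℝ, 1 ≤ x → ‖riesz x‖ ≤ C * x ^ α)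
    {z : ℂ} (hz : α < z.re) (hz1 : z.re < 1) :
    DifferentiableAt ℂ (fun w => mellin riesz (-w)) z := by
  have hd := mellin_differentiableAt_of_isBigO_rpow (f := riesz) (a := -α) (b := -1) (s := -z)
    (continuousOn_riesz.locallyIntegrableOn measurableSet_Ioi) ?_ (by simpa using hz) ?_
    (by simpa using hz1)
  · exact hd.comp z differentiableAt_fun_id.neg
  · refine IsBigO.of_bound (max C 0) ((eventually_gt_atTop 1).mono fun t ht => ?_)
    rw [neg_neg, Real.norm_of_nonneg (Real.rpow_nonneg (by linarith) _)]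
    exact (h t ht.le).trans
      (mul_le_mul_of_nonneg_right (le_max_left _ _) (Real.rpow_nonneg (by linarith) _))
  · refine IsBigO.of_bound (∑' n : ℕ, 1 / (n : ℝ) ^ 2) ?_
    filter_upwards [self_mem_nhdsWithin] with t (ht : 0 < t)
    rw [neg_neg, Real.rpow_one, Real.norm_of_nonneg ht.le, mul_comm]
    exact norm_riesz_le ht.le

/-- A term of the Mellin transform. -/
def mellinTerm (s : ℂ) (n : ℕ) (t : ℝ) : ℂ := (t : ℂ) ^ (-s - 1) * (kernelTerm t n : ℂ)

theorem mellinTerm_eq (s : ℂ) (n : ℕ) {t : ℝ} (ht : 0 < t) :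
    mellinTerm s n t = ((μ n : ℂ) * (((1 / (n : ℝ) ^ 2 : ℝ)) : ℂ)) *
      ((t : ℂ) ^ ((1 - s) - 1) * Complex.exp (-(((1 / (n : ℝ) ^ 2 : ℝ) : ℂ) * t))) := by
  have e : (t : ℂ) ^ ((1 - s) - 1) = (t : ℂ) ^ (-s - 1) * t := by
    rw [show (1 - s) - 1 = (-s - 1) + 1 by ring,
      Complex.cpow_add _ _ (Complex.ofReal_ne_zero.2 ht.ne'), Complex.cpow_one]
  rw [mellinTerm, kernelTerm, e,
    show (μ n : ℝ) * (t / (n : ℝ) ^ 2 * Real.exp (-(t / (n : ℝ) ^ 2))) =
      (μ n : ℝ) * (1 / (n : ℝ) ^ 2) * t * Real.exp (-(1 / (n : ℝ) ^ 2 * t)) by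
        rw [one_div_mul_eq_div]; ring]
  push_cast
  ring_nf

theorem mellin_riesz {s : ℂ} (hs : 1 / 2 < s.re) (hs1 : s.re < 1) :
    mellin riesz (-s) = Complex.Gamma (1 - s) * FA.VonKoch.invZeta (2 * s) := by
  set r : ℕ → ℝ := fun n => 1 / (n : ℝ) ^ 2 with hr
  have hr0 : ∀ n, 0 < n → 0 < r n := fun n hn => by
    rw [hr]
    positivity
  have hσ : 0 < 1 - s.re := by linarith
  have hs2 : 1 < (2 * s).re := by
    simp
    linarith
  have hnorm : ∀ n, ∀ t ∈ Set.Ioi (0 : ℝ), ‖mellinTerm s n t‖ =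
      |(μ n : ℝ)| * r n * (t ^ ((1 - s.re) - 1) * Real.exp (-(r n * t))) := by
    intro n t ht
    rw [Set.mem_Ioi] at ht
    rw [mellinTerm_eq s n ht, ← Complex.ofReal_mul, ← Complex.ofReal_neg, ← Complex.ofReal_exp,
      norm_mul, norm_mul, norm_mul, Complex.norm_cpow_eq_rpow_re_of_pos ht, Complex.norm_real,
      Complex.norm_real, Complex.norm_intCast, Real.norm_of_nonneg (by positivity),
      Real.norm_of_nonneg (by positivity)]
    simp [hr]
  have hint : ∀ n, IntegrableOn (mellinTerm s n) (Set.Ioi 0) := by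
    intro n
    rcases Nat.eq_zero_or_pos n with rfl | hn
    · have : mellinTerm s 0 = fun _ => 0 := funext fun t => by simp [mellinTerm, kernelTerm]
      rw [this]
      exact integrableOn_zero
    have hg : IntegrableOn (fun t : ℝ => |(μ n : ℝ)| * r n *
        (t ^ ((1 - s.re) - 1) * Real.exp (-(r n * t)))) (Set.Ioi 0) := by
      refine (Integrable.of_integral_ne_zero ?_).const_mul _
      rw [Real.integral_rpow_mul_exp_neg_mul_Ioi hσ (hr0 n hn)]
      have := hr0 n hn
      have := Real.Gamma_pos_of_pos hσ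
      positivity
    refine hg.mono' ?_ ((ae_restrict_mem measurableSet_Ioi).mono fun t ht => (hnorm n t ht).le)
    refine ContinuousOn.aestronglyMeasurable ?_ measurableSet_Ioi
    intro t ht
    refine ((Complex.continuousAt_ofReal_cpow_const t _ (Or.inr (ne_of_gt ht))).mul ?_)
      |>.continuousWithinAt
    exact (Complex.continuous_ofReal.comp (by unfold kernelTerm; fun_prop :
      Continuous fun x => kernelTerm x n)).continuousAt
  have hsum : Summable fun n => ∫ t in Set.Ioi (0 : ℝ), ‖mellinTerm s n t‖ := by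
    refine Summable.of_nonneg_of_le (fun n => integral_nonneg fun t => norm_nonneg _)
      (fun n => ?_) (((Real.summable_nat_rpow (p := -(2 * s.re))).2 (by linarith)).mul_left
        (Real.Gamma (1 - s.re)))
    rw [setIntegral_congr_fun measurableSet_Ioi (hnorm n), integral_const_mul]
    rcases Nat.eq_zero_or_pos n with rfl | hn
    · simp [Real.zero_rpow (show (-(2 * s.re)) ≠ 0 by linarith)]
    rw [Real.integral_rpow_mul_exp_neg_mul_Ioi hσ (hr0 n hn)]
    have hn0 : (0 : ℝ) < n := Nat.cast_pos.2 hn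
    have e : r n * (1 / r n) ^ (1 - s.re) = (n : ℝ) ^ (-(2 * s.re)) := by
      simp only [hr, one_div_one_div]
      rw [← Real.rpow_natCast, ← Real.rpow_mul hn0.le, one_div, ← Real.rpow_neg hn0.le,
        ← Real.rpow_add hn0]
      congr 1
      push_cast
      ring
    rw [mul_assoc, ← mul_assoc (r n), e, mul_comm ((n : ℝ) ^ _)]
    exact mul_le_of_le_one_left (mul_nonneg (Real.Gamma_pos_of_pos hσ).le (by positivity))
      (by exact_mod_cast ArithmeticFunction.abs_moebius_le_one)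
  have hterm : ∀ n, ∫ t in Set.Ioi (0 : ℝ), mellinTerm s n t =
      Complex.Gamma (1 - s) * LSeries.term (fun n => ((μ n : ℤ) : ℂ)) (2 * s) n := by
    intro n
    rcases Nat.eq_zero_or_pos n with rfl | hn
    · simp [mellinTerm, kernelTerm]
    rw [setIntegral_congr_fun measurableSet_Ioi fun t ht => mellinTerm_eq s n ht,
      integral_const_mul, Complex.integral_cpow_mul_exp_neg_mul_Ioi (by simpa using hσ) (hr0 n hn),
      LSeries.term_of_ne_zero hn.ne']
    have hn0 : (n : ℂ) ≠ 0 := Nat.cast_ne_zero.2 hn.ne'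
    have e : ((1 / (n : ℝ) ^ 2 : ℝ) : ℂ) * (1 / ((1 / (n : ℝ) ^ 2 : ℝ) : ℂ)) ^ (1 - s) =
        ((n : ℂ) ^ (2 * s))⁻¹ := by
      push_cast
      rw [one_div_one_div, sq, Complex.natCast_mul_natCast_cpow, ← Complex.cpow_add _ _ hn0,
        ← sq, ← Complex.cpow_natCast, one_div, ← Complex.cpow_neg, ← Complex.cpow_add _ _ hn0,
        ← Complex.cpow_neg]
      congr 1
      push_cast
      ring
    rw [mul_assoc (μ n : ℂ), ← mul_assoc ((_ : ℝ) : ℂ), e, div_eq_mul_inv]
    ring
  calc mellin riesz (-s) = ∫ t in Set.Ioi (0 : ℝ), ∑' n, mellinTerm s n t := by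
        rw [mellin]
        refine setIntegral_congr_fun measurableSet_Ioi fun t _ => ?_
        simp only [mellinTerm, riesz_eq, smul_eq_mul, Complex.ofReal_tsum, tsum_mul_left]
    _ = ∑' n, ∫ t in Set.Ioi (0 : ℝ), mellinTerm s n t :=
        (integral_tsum_of_summable_integral_norm hint hsum).symm
    _ = _ := by
        rw [tsum_congr hterm, tsum_mul_left, ← (FA.VonKoch.moebius_series hs2).2]
        rfl

theorem riemannZeta₁_ne_zero_of_bound {α C : ℝ} (hα : α < 3 / 4)
    (h : ∀ x : ℝ, 1 ≤ x → ‖riesz x‖ ≤ C * x ^ α) {s : ℂ} (hs : α < s.re) (hs1 : s.re < 1)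
    (hs0 : s ≠ 1 / 2) : riemannZeta₁ (2 * s) ≠ 0 := by
  obtain ⟨U, hU⟩ : ∃ U : Set ℂ, U = Complex.re ⁻¹' Set.Ioo α 1 := ⟨_, rfl⟩
  have hUo : IsOpen U := hU ▸ isOpen_Ioo.preimage Complex.continuous_re
  have hUc : IsPreconnected U :=
    hU ▸ ((convex_Ioo α 1).linear_preimage Complex.reLm).isPreconnected
  obtain ⟨P, hP⟩ : ∃ P : ℂ → ℂ, P = fun z => mellin riesz (-z) * riemannZeta₁ (2 * z) :=
    ⟨_, rfl⟩
  obtain ⟨Q, hQ⟩ : ∃ Q : ℂ → ℂ, Q = fun z => (2 * z - 1) * Complex.Gamma (1 - z) := ⟨_, rfl⟩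
  have hPd : AnalyticOnNhd ℂ P U := by
    refine DifferentiableOn.analyticOnNhd (fun z hz => ?_) hUo
    rw [hU] at hz
    rw [hP]
    exact ((differentiableAt_mellin_riesz h hz.1 hz.2).mul
      ((differentiable_riemannZeta₁ (2 * z)).comp z
        (differentiableAt_id.const_mul 2))).differentiableWithinAt
  have hQd : AnalyticOnNhd ℂ Q U := by
    refine DifferentiableOn.analyticOnNhd (fun z hz => ?_) hUo
    rw [hU] at hz
    rw [hQ]
    refine (((differentiableAt_id.const_mul 2).sub_const 1).mul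
      ((Complex.differentiableAt_Gamma _ fun m e => ?_).comp z
        (differentiableAt_id.const_sub 1))).differentiableWithinAt
    have h1 := congrArg Complex.re e
    simp at h1
    linarith [hz.2, (Nat.cast_nonneg m : (0 : ℝ) ≤ m)]
  have hz0 : max α (1 / 2) < (3 / 4 : ℂ).re := by
    norm_num
    exact hα
  have hev : P =ᶠ[𝓝 (3 / 4 : ℂ)] Q := by
    filter_upwards [(isOpen_Ioo.preimage Complex.continuous_re).mem_nhds
      (show (3 / 4 : ℂ) ∈ Complex.re ⁻¹' Set.Ioo (max α (1 / 2)) 1 from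
        ⟨hz0, by norm_num⟩)] with z hz
    have h1 : 1 / 2 < z.re := lt_of_le_of_lt (le_max_right _ _) hz.1
    have h2 : 1 < (2 * z).re := by
      simp
      linarith
    rw [hP, hQ]
    simp only
    rw [mellin_riesz h1 hz.2, FA.VonKoch.invZeta, mul_assoc,
      div_mul_cancel₀ _ (FA.ZeroFree.riemannZeta₁_ne_zero_of_one_le h2.le), mul_comm]
  have hmem : (3 / 4 : ℂ) ∈ U := by
    rw [hU]
    exact ⟨lt_of_le_of_lt (le_max_left _ _) hz0, by norm_num⟩
  have heq := hPd.eqOn_of_preconnected_of_eventuallyEq hQd hUc hmem hev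
    (show s ∈ U by rw [hU]; exact ⟨hs, hs1⟩)
  intro h0
  simp only [hP, hQ, h0, mul_zero] at heq
  rcases mul_eq_zero.1 heq.symm with h1 | h1
  · exact hs0 (by linear_combination h1 / 2)
  · exact Complex.Gamma_ne_zero_of_re_pos (by simp; linarith) h1

theorem rh_of_bound
    (h : ∀ ε : ℝ, 0 < ε → ∃ C : ℝ, ∀ x : ℝ, 1 ≤ x → ‖riesz x‖ ≤ C * x ^ (1 / 4 + ε)) :
    RiemannHypothesis := by
  refine FA.VonKoch.Summary.riemannHypothesis_iff_mertens.2
    ((FA.VonKoch.Summary.zeroFree_iff_mertens le_rfl (by norm_num)).1 fun w hw hw1 h0 => ?_)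
  rcases lt_or_ge w.re 1 with hlt | hge
  · obtain ⟨C, hC⟩ := h ((w.re / 2 - 1 / 4) / 2) (by linarith)
    have hre : (w / 2).re = w.re / 2 := by simp
    have h1 := riemannZeta₁_ne_zero_of_bound (by linarith) hC (s := w / 2)
      (by rw [hre]; linarith) (by rw [hre]; linarith) fun e => hw1 (by linear_combination 2 * e)
    rw [mul_div_cancel₀ _ (two_ne_zero' ℂ)] at h1
    rw [riemannZeta_eq_inv_sub_mul hw1, mul_eq_zero] at h0
    rcases h0 with h0 | h0
    · exact hw1 (sub_eq_zero.1 (inv_eq_zero.1 h0))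
    · exact h1 h0
  · exact riemannZeta_ne_zero_of_one_le_re hge h0

end FA.RieszCriterion
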