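import Fermat.Agent.VonKoch.Main
import Mathlib.Analysis.Calculus.MeanValue
import Mathlib.Analysis.PSeries
import Mathlib.Tactic

/-!
# Riesz's function

`∑ (-1) ^ k x ^ (k + 1) / (k ! ζ (2 k + 2))` is `x ∑ μ n exp (-x / n²) / n²`, and a bound
`O (n ^ (1/2 + η))` for the Mertens function bounds it by `O (x ^ (1/4 + η))` for small `η`.
-/

set_option autoImplicit false

noncomputable section

open Finset Filter
open scoped Topology ArithmeticFunction.Moebius

namespace FA.RieszCriterion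

/-- A term of Riesz's series. -/
def seriesTerm (x : ℝ) (k : ℕ) : ℂ :=
  (-1) ^ k * (x : ℂ) ^ (k + 1) / ((k.factorial : ℂ) * riemannZeta (2 * ((k : ℂ) + 1)))

/-- Riesz's function. -/
def riesz (x : ℝ) : ℂ := ∑' k, seriesTerm x k

/-- A term of the series over `μ`. -/
def kernelTerm (x : ℝ) (n : ℕ) : ℝ :=
  (μ n : ℝ) * (x / (n : ℝ) ^ 2 * Real.exp (-(x / (n : ℝ) ^ 2)))

/-- The double series. -/
def doubleTerm (x : ℝ) (p : ℕ × ℕ) : ℝ :=
  (-1) ^ p.1 * x ^ (p.1 + 1) / p.1.factorial * ((μ p.2 : ℝ) / (p.2 : ℝ) ^ (2 * (p.1 + 1)))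

theorem summable_doubleTerm (x : ℝ) : Summable (doubleTerm x) := by
  have h1 : Summable fun k : ℕ => |x| * (|x| ^ k / k.factorial) :=
    (Real.summable_pow_div_factorial |x|).mul_left |x|
  have h2 : Summable fun n : ℕ => 1 / (n : ℝ) ^ 2 := Real.summable_one_div_nat_pow.2 one_lt_two
  refine Summable.of_norm_bounded (h1.mul_of_nonneg h2 (fun k => by positivity)
    fun n => by positivity) fun p => ?_
  rw [doubleTerm, Real.norm_eq_abs, abs_mul, abs_div, abs_mul, abs_pow, abs_pow, abs_neg, abs_one,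
    one_pow, one_mul, Nat.abs_cast, pow_succ', mul_div_assoc, abs_div, abs_pow, Nat.abs_cast]
  refine mul_le_mul_of_nonneg_left ?_ (by positivity)
  rcases Nat.eq_zero_or_pos p.2 with h0 | h0
  · simp [h0]
  · have hn : (1 : ℝ) ≤ p.2 := Nat.one_le_cast.2 h0
    refine div_le_div₀ zero_le_one ?_ (by positivity) (pow_le_pow_right₀ hn (by omega))
    exact_mod_cast ArithmeticFunction.abs_moebius_le_one

theorem hasSum_kernel_row (x : ℝ) (n : ℕ) :
    HasSum (fun k => doubleTerm x (k, n)) (kernelTerm x n) := by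
  have h := NormedSpace.expSeries_div_hasSum_exp (-(x / (n : ℝ) ^ 2))
  rw [← Real.exp_eq_exp_ℝ] at h
  have h' := (h.mul_left (x / (n : ℝ) ^ 2)).mul_left (μ n : ℝ)
  refine h'.congr_fun fun k => ?_
  rw [doubleTerm, neg_pow (x / (n : ℝ) ^ 2) k, div_pow, pow_succ' x k, pow_mul,
    pow_succ' ((n : ℝ) ^ 2) k]
  simp only [div_eq_mul_inv, mul_inv]
  ring

theorem hasSum_zeta_column (x : ℝ) (k : ℕ) :
    HasSum (fun n => (doubleTerm x (k, n) : ℂ)) (seriesTerm x k) := by
  have hs : 1 < (2 * ((k : ℂ) + 1)).re := by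
    simp
    linarith [(Nat.cast_nonneg k : (0 : ℝ) ≤ k)]
  obtain ⟨hsum, hval⟩ := FA.VonKoch.moebius_series hs
  have hne : (2 * ((k : ℂ) + 1)) ≠ 1 := fun h1 => by
    rw [h1] at hs
    simp at hs
  rw [FA.VonKoch.invZeta_eq hne] at hval
  have h := (hsum.LSeriesHasSum.mul_left ((-1 : ℂ) ^ k * (x : ℂ) ^ (k + 1) / k.factorial))
  rw [hval, ← div_eq_mul_inv, div_div, ← seriesTerm] at h
  refine h.congr_fun fun n => ?_
  rcases Nat.eq_zero_or_pos n with rfl | hn
  · simp [doubleTerm]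
  · rw [doubleTerm, LSeries.term_of_ne_zero hn.ne',
      show (2 * ((k : ℂ) + 1)) = ((2 * (k + 1) : ℕ) : ℂ) by push_cast; ring, Complex.cpow_natCast]
    push_cast
    ring

theorem summable_kernelTerm (x : ℝ) : Summable (kernelTerm x) := by
  have h := (summable_doubleTerm x).prod_symm
  exact (h.hasSum.prod_fiberwise fun n => hasSum_kernel_row x n).summable

/-- **Riesz's series.** -/
theorem hasSum_series (x : ℝ) :
    HasSum (seriesTerm x) ((∑' n, kernelTerm x n : ℝ) : ℂ) := by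
  have h := (summable_doubleTerm x).hasSum
  have h2 : HasSum (kernelTerm x) (∑' p, doubleTerm x p) :=
    ((Equiv.prodComm ℕ ℕ).hasSum_iff.2 h).prod_fiberwise fun n => hasSum_kernel_row x n
  rw [h2.tsum_eq]
  exact (Complex.hasSum_ofReal.2 h).prod_fiberwise fun k => hasSum_zeta_column x k

theorem riesz_eq (x : ℝ) : riesz x = ((∑' n, kernelTerm x n : ℝ) : ℂ) := (hasSum_series x).tsum_eq

/-- The weight in the Abel summation. -/
def weight (x u : ℝ) : ℝ := Real.exp (-(x / u ^ 2)) / u ^ 2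

theorem add_one_mul_exp_neg_le {y : ℝ} (hy : 0 ≤ y) :
    (y + 1) * Real.exp (-y) ≤ 1 ∧ y * ((y + 1) * Real.exp (-y)) ≤ 4 := by
  have he := Real.exp_pos y
  have h1 := Real.add_one_le_exp y
  have h2 := Real.quadratic_le_exp_of_nonneg hy
  rw [Real.exp_neg, ← div_eq_mul_inv, mul_div_assoc', div_le_one he, div_le_iff₀ he]
  exact ⟨h1, by nlinarith⟩

theorem hasDerivAt_weight (x : ℝ) {u : ℝ} (hu : u ≠ 0) :
    HasDerivAt (weight x) (Real.exp (-(x / u ^ 2)) * (2 * (x / u ^ 2) - 2) / u ^ 3) u := by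
  have h1 := ((hasDerivAt_const u x).div (hasDerivAt_pow 2 u) (pow_ne_zero 2 hu)).neg.exp
  have h2 := h1.div (hasDerivAt_pow 2 u) (pow_ne_zero 2 hu)
  refine h2.congr_deriv ?_
  · simp only [Pi.div_apply, Pi.neg_apply]
    push_cast
    field_simp
    ring

theorem abs_weight_sub_le {x : ℝ} (hx : 0 < x) {n : ℕ} (hn : 0 < n) :
    |weight x n - weight x (n + 1)| ≤ 2 / (n : ℝ) ^ 3 ∧
      |weight x n - weight x (n + 1)| ≤ 8 / (x * n) := by
  have hn0 : (0 : ℝ) < n := Nat.cast_pos.2 hn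
  have hb : ∀ C : ℝ, (∀ u ∈ Set.Icc (n : ℝ) (n + 1),
      ‖Real.exp (-(x / u ^ 2)) * (2 * (x / u ^ 2) - 2) / u ^ 3‖ ≤ C) →
        |weight x n - weight x (n + 1)| ≤ C := by
    intro C hC
    have h := (convex_Icc (n : ℝ) (n + 1)).norm_image_sub_le_of_norm_hasDerivWithin_le
      (f := weight x) (x := (n : ℝ)) (y := (n : ℝ) + 1)
      (fun u hu => (hasDerivAt_weight x (ne_of_gt (hn0.trans_le hu.1))).hasDerivWithinAt) hC
      (Set.left_mem_Icc.2 (by linarith)) (Set.right_mem_Icc.2 (by linarith))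
    rw [Real.norm_eq_abs, Real.norm_eq_abs, add_sub_cancel_left, abs_one, mul_one] at h
    rwa [abs_sub_comm]
  have hd : ∀ u ∈ Set.Icc (n : ℝ) (n + 1),
      ‖Real.exp (-(x / u ^ 2)) * (2 * (x / u ^ 2) - 2) / u ^ 3‖ ≤
        2 * ((x / u ^ 2 + 1) * Real.exp (-(x / u ^ 2))) / u ^ 3 := by
    intro u hu
    have hu0 : 0 < u := hn0.trans_le hu.1
    have hy : 0 ≤ x / u ^ 2 := by positivity
    rw [Real.norm_eq_abs, abs_div, abs_mul, Real.abs_exp, abs_of_pos (pow_pos hu0 3)]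
    refine div_le_div_of_nonneg_right ?_ (by positivity)
    rw [mul_comm, ← mul_assoc]
    refine mul_le_mul_of_nonneg_right ?_ (Real.exp_pos _).le
    rw [abs_le]
    constructor <;> linarith
  refine ⟨hb _ fun u hu => (hd u hu).trans ?_, hb _ fun u hu => (hd u hu).trans ?_⟩
  · have hu0 : 0 < u := hn0.trans_le hu.1
    exact div_le_div₀ zero_le_two (by linarith [(add_one_mul_exp_neg_le
      (show 0 ≤ x / u ^ 2 by positivity)).1]) (by positivity) (pow_le_pow_left₀ hn0.le hu.1 3)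
  · have hu0 : 0 < u := hn0.trans_le hu.1
    have h := (add_one_mul_exp_neg_le (show 0 ≤ x / u ^ 2 by positivity)).2
    rw [div_mul_eq_mul_div, div_le_iff₀ (by positivity)] at h
    rw [div_le_div_iff₀ (by positivity) (by positivity)]
    nlinarith [mul_le_mul_of_nonneg_left h hn0.le,
      mul_le_mul_of_nonneg_right hu.1 (show (0 : ℝ) ≤ 8 * u ^ 2 by positivity)]

theorem sum_mul_weight (x : ℝ) (N : ℕ) :
    ∑ n ∈ Icc 1 N, (μ n : ℝ) * weight x n =
      ∑ n ∈ Icc 1 N, (∑ k ∈ Icc 1 n, (μ k : ℝ)) * (weight x n - weight x (n + 1)) +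
        (∑ k ∈ Icc 1 N, (μ k : ℝ)) * weight x (N + 1) := by
  induction N with
  | zero => simp
  | succ N ih =>
    rw [sum_Icc_succ_top (by omega), ih, sum_Icc_succ_top (b := N) (by omega)
      (fun n => (∑ k ∈ Icc 1 n, (μ k : ℝ)) * (weight x n - weight x (n + 1))),
      sum_Icc_succ_top (by omega : 1 ≤ N + 1) (fun k => (μ k : ℝ))]
    push_cast
    ring

theorem abs_sum_moebius_le (N : ℕ) : |∑ k ∈ Icc 1 N, (μ k : ℝ)| ≤ N := by
  refine (abs_sum_le_sum_abs _ _).trans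
    ((sum_le_sum (g := fun _ => (1 : ℝ)) fun k _ => ?_).trans ?_)
  · exact_mod_cast ArithmeticFunction.abs_moebius_le_one
  · simp

/-- The bound coming from a bound on the Mertens function. -/
theorem riesz_bound {η C : ℝ} (hη : 0 < η) (hη2 : η ≤ 1 / 2)
    (hC : ∀ n : ℕ, 1 ≤ n → |∑ k ∈ Icc 1 n, (μ k : ℝ)| ≤ C * (n : ℝ) ^ (1 / 2 + η)) :
    ∃ K : ℝ, ∀ x : ℝ, 1 ≤ x → ‖riesz x‖ ≤ K * x ^ (1 / 4 + η) := by
  have hC0 : 0 ≤ C := by simpa using (abs_nonneg _).trans (hC 1 le_rfl)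
  set θ : ℝ := 1 / 4 + η with hθ
  set Z : ℝ := ∑' n : ℕ, (n : ℝ) ^ (-1 - η) with hZ
  have hZs : Summable fun n : ℕ => (n : ℝ) ^ (-1 - η) := Real.summable_nat_rpow.2 (by linarith)
  refine ⟨8 * C * Z, fun x hx => ?_⟩
  have hx0 : 0 < x := by linarith
  have hD : ∀ n : ℕ, 1 ≤ n → |(∑ k ∈ Icc 1 n, (μ k : ℝ)) * (weight x n - weight x (n + 1))| ≤
      8 * C * x ^ (θ - 1) * (n : ℝ) ^ (-1 - η) := by
    intro n hn
    have hn0 : (0 : ℝ) < n := Nat.cast_pos.2 hn
    obtain ⟨ha, hb⟩ := abs_weight_sub_le hx0 hn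
    have h1 : |weight x n - weight x (n + 1)| ≤
        (2 / (n : ℝ) ^ 3) ^ θ * (8 / (x * n)) ^ (1 - θ) := by
      have h0 := abs_nonneg (weight x n - weight x (n + 1))
      calc |weight x n - weight x (n + 1)|
          = |weight x n - weight x (n + 1)| ^ θ * |weight x n - weight x (n + 1)| ^ (1 - θ) := by
            rw [← Real.rpow_add' h0 (by norm_num), add_sub_cancel, Real.rpow_one]
        _ ≤ _ := mul_le_mul (Real.rpow_le_rpow h0 ha (by linarith))
            (Real.rpow_le_rpow h0 hb (by linarith)) (by positivity) (by positivity)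
    have h2 : (2 / (n : ℝ) ^ 3) ^ θ * (8 / (x * n)) ^ (1 - θ) ≤
        8 * x ^ (θ - 1) * (n : ℝ) ^ (-1 - 2 * θ) := by
      have e8 : (2 : ℝ) ^ θ * 8 ^ (1 - θ) ≤ 8 := by
        calc (2 : ℝ) ^ θ * 8 ^ (1 - θ) ≤ 8 ^ θ * 8 ^ (1 - θ) :=
              mul_le_mul_of_nonneg_right
                (Real.rpow_le_rpow zero_le_two (by norm_num) (by linarith)) (by positivity)
          _ = 8 := by rw [← Real.rpow_add (by norm_num), add_sub_cancel, Real.rpow_one]
      have e1 : ((n : ℝ) ^ 3) ^ θ = (n : ℝ) ^ (3 * θ) := by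
        rw [← Real.rpow_natCast, ← Real.rpow_mul hn0.le]
        norm_num
      rw [Real.div_rpow zero_le_two (by positivity), Real.div_rpow (by norm_num) (by positivity),
        Real.mul_rpow hx0.le hn0.le, e1,
        show θ - 1 = -(1 - θ) by ring, Real.rpow_neg hx0.le,
        show (-1 : ℝ) - 2 * θ = -(3 * θ + (1 - θ)) by ring, Real.rpow_neg hn0.le,
        Real.rpow_add hn0]
      calc _ = ((2 : ℝ) ^ θ * 8 ^ (1 - θ)) *
            ((x ^ (1 - θ))⁻¹ * ((n : ℝ) ^ (3 * θ) * (n : ℝ) ^ (1 - θ))⁻¹) := by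
              simp only [div_eq_mul_inv, mul_inv]; ring
        _ ≤ 8 * ((x ^ (1 - θ))⁻¹ * ((n : ℝ) ^ (3 * θ) * (n : ℝ) ^ (1 - θ))⁻¹) :=
              mul_le_mul_of_nonneg_right e8 (by positivity)
        _ = _ := by ring
    rw [abs_mul]
    refine (mul_le_mul (hC n hn) (h1.trans h2) (abs_nonneg _) (by positivity)).trans (le_of_eq ?_)
    rw [show (-1 : ℝ) - η = 1 / 2 + η + (-1 - 2 * θ) by rw [hθ]; ring,
      Real.rpow_add hn0 (1 / 2 + η)]
    ring
  have hfin : ∀ N : ℕ, |∑ n ∈ Icc 1 N, (μ n : ℝ) * weight x n| ≤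
      8 * C * x ^ (θ - 1) * Z + 1 / (N + 1) := by
    intro N
    rw [sum_mul_weight]
    refine (abs_add_le _ _).trans (add_le_add ?_ ?_)
    · refine (abs_sum_le_sum_abs _ _).trans
        ((sum_le_sum fun n hn => hD n (mem_Icc.1 hn).1).trans ?_)
      rw [← mul_sum]
      exact mul_le_mul_of_nonneg_left (hZs.sum_le_tsum _ fun n _ => by positivity) (by positivity)
    · have hw : 0 ≤ weight x (N + 1) ∧ weight x (N + 1) ≤ 1 / ((N : ℝ) + 1) ^ 2 := by
        refine ⟨by unfold weight; positivity, ?_⟩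
        unfold weight
        exact div_le_div_of_nonneg_right (Real.exp_le_one_iff.2 (neg_nonpos.2 (by positivity)))
          (by positivity)
      rw [abs_mul, abs_of_nonneg hw.1]
      refine (mul_le_mul (abs_sum_moebius_le N) hw.2 hw.1 (by positivity)).trans ?_
      rw [mul_one_div, div_le_div_iff₀ (by positivity) (by positivity)]
      nlinarith
  have hlim : Tendsto (fun N : ℕ => |∑ n ∈ Icc 1 N, (μ n : ℝ) * weight x n|) atTop
      (𝓝 |∑' n, kernelTerm x n / x|) := by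
    refine Tendsto.abs ?_
    have h := (((summable_kernelTerm x).div_const x).hasSum.tendsto_sum_nat).comp
      (tendsto_add_atTop_nat 1)
    refine h.congr fun N => ?_
    simp only [Function.comp_apply]
    rw [range_eq_Ico, sum_eq_sum_Ico_succ_bot (by omega : 0 < N + 1)]
    simp only [kernelTerm, Nat.cast_zero, ArithmeticFunction.map_zero, Int.cast_zero, zero_mul,
      zero_div, zero_add]
    rw [show Ico 1 (N + 1) = Icc 1 N from Finset.Ico_add_one_right_eq_Icc 1 N]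
    refine sum_congr rfl fun n _ => ?_
    rw [weight]
    field_simp
  have hle : |∑' n, kernelTerm x n / x| ≤ 8 * C * x ^ (θ - 1) * Z + 0 :=
    le_of_tendsto_of_tendsto' hlim (tendsto_const_nhds.add tendsto_one_div_add_atTop_nhds_zero_nat)
      hfin
  rw [tsum_div_const, abs_div, abs_of_pos hx0, div_le_iff₀ hx0, add_zero] at hle
  rw [riesz_eq, Complex.norm_real, Real.norm_eq_abs]
  refine hle.trans (le_of_eq ?_)
  rw [Real.rpow_sub_one hx0.ne']
  field_simp

end FA.RieszCriterion
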